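import Fermat.Agent.S27.API.Ring
import Fermat.Agent.S27.Frob.DenSep
import Fermat.Agent.S27.Frob.Curve

/-!
# S27, block API, file `Frac`: `F = Frac M.R`, `M.R` is integrally closed
-/

set_option autoImplicit false

noncomputable section

namespace Fermat.Agent.S27

open AlgebraicCurve Polynomial

universe u v

variable {k : Type u} {F : Type v} [Field k] [Field F] [Algebra k F] {s : Shape}

namespace OnePointModel

variable (M : OnePointModel k F s)

/-- common denominator: `Frob.denSep_hasDenominators (Frob.stmtCurve k F h hRR) M`. -/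
theorem exists_denominator (h : CurveHyp k F) (hRR : RRPackage k F) (f : F) :
    ∃ g : M.R, g ≠ 0 ∧ (g : F) * f ∈ M.R := by
  obtain ⟨g, hg0, hg, hgf⟩ := Frob.denSep_hasDenominators (Frob.stmtCurve k F h hRR) M f
  refine ⟨⟨g, M.mem_R_iff.mpr hg⟩, ?_, M.mem_R_iff.mpr hgf⟩
  intro h0
  exact hg0 (congrArg Subtype.val h0)

/-- check the three fields of `IsLocalization` by hand (cf. the Mathlib instance for
`ValuationSubring`), or `IsFractionRing.of_field` / `isFractionRing_iff...` if available. -/
theorem isFractionRing (h : CurveHyp k F) (hRR : RRPackage k F) : IsFractionRing M.R F := by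
  apply IsFractionRing.of_field
  intro z
  obtain ⟨g, hg0, hgz⟩ := M.exists_denominator h hRR z
  refine ⟨⟨(g : F) * z, hgz⟩, g, ?_⟩
  have hg : (g : F) ≠ 0 := fun h0 => hg0 (Subtype.ext h0)
  show z = (g : F) * z / (g : F)
  field_simp

/-- an element of `F` integral over `M.R` is integral over every `O_v ⊇ M.R`, `v ≠ inf`, and valuation
rings are integrally closed. -/
theorem mem_R_of_isIntegral {f : F} (hf : IsIntegral M.R f) : f ∈ M.R := by
  rw [mem_R_iff']
  intro v hv
  obtain ⟨p, hp, hpf⟩ := hf
  let ι : M.R →+* v.toValuationSubring :=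
    (M.R.val.toRingHom).codRestrict v.toValuationSubring.toSubring (fun x => x.2 v hv)
  have hcomp : (algebraMap v.toValuationSubring F).comp ι = algebraMap M.R F := rfl
  have hint : IsIntegral v.toValuationSubring f := by
    refine ⟨p.map ι, hp.map ι, ?_⟩
    rw [eval₂_map, hcomp]
    exact hpf
  obtain ⟨y, hy⟩ := IsIntegrallyClosed.isIntegral_iff.mp hint
  rw [← hy]
  exact y.2

theorem isIntegrallyClosed (h : CurveHyp k F) (hRR : RRPackage k F) : IsIntegrallyClosed M.R := by
  have := M.isFractionRing h hRR
  refine (isIntegrallyClosed_iff F).mpr fun {x} hx => ?_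
  exact ⟨⟨x, M.mem_R_of_isIntegral hx⟩, rfl⟩

end OnePointModel

end Fermat.Agent.S27
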