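import Fermat.Agent.S27.API.Rho
import Fermat.Agent.S27.E.Semigroup2
import Fermat.Agent.S27.Frob.Curve

/-!
# S27, block API, file `Genus`: `L(n · inf)`, the genus of a model
-/

set_option autoImplicit false

noncomputable section

namespace Fermat.Agent.S27

open AlgebraicCurve Polynomial

universe u v

variable {k : Type u} {F : Type v} [Field k] [Field F] [Algebra k F] {s : Shape}

namespace OnePointModel

variable (M : OnePointModel k F s)

/-- the divisor `n · inf`. -/
def nInf (n : ℤ) : Divisor k F := Finsupp.single M.inf n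

theorem degree_nInf (h : BaseHyp k F) (n : ℤ) : Divisor.degree (M.nInf n) = n := by
  rw [nInf, Divisor.degree_single, Frob.curve_deg_eq_one h]
  simp

/-- `L(n · inf) = {f ∈ R | rho f ≤ n}`  (`mem_riemannRochSpace_iff`, `mem_R_iff`, `ord_inf'`). -/
theorem mem_L_nInf_iff (n : ℕ) (f : F) :
    f ∈ riemannRochSpace (M.nInf n) ↔ ∃ g : M.R, (g : F) = f ∧ M.algModel.rho g ≤ n := by
  classical
  rw [mem_riemannRochSpace_iff]
  constructor
  · intro h
    have hR : f ∈ M.R := by
      rw [M.mem_R_iff]
      intro v hv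
      rcases h v with rfl | h'
      · simp
      · rw [nInf, Finsupp.single_apply, if_neg (Ne.symm hv), neg_zero] at h'
        exact h'
    refine ⟨⟨f, hR⟩, rfl, ?_⟩
    rcases h M.inf with rfl | h'
    · have : (⟨0, hR⟩ : M.R) = 0 := rfl
      rw [this, E.AlgModel.rho_zero]
      exact Nat.zero_le _
    · rw [nInf, Finsupp.single_apply, if_pos rfl] at h'
      have h2 := M.ord_inf' ⟨f, hR⟩
      simp only at h2
      omega
  · rintro ⟨g, rfl, hg⟩ v
    right
    by_cases hv : v = M.inf
    · subst hv
      rw [nInf, Finsupp.single_apply, if_pos rfl, M.ord_inf' g]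
      omega
    · rw [nInf, Finsupp.single_apply, if_neg (Ne.symm hv), neg_zero]
      exact M.mem_R_iff.1 g.2 v hv

theorem genus_finite_wt_le (s : Shape) (n : ℕ) : {jt : Fin s.m × ℕ | s.wt jt ≤ n}.Finite :=
  Set.Finite.preimage s.wt_injective.injOn (Set.finite_Iic n)

/-- `l(n · inf) = #{jt | wt jt ≤ n}`: by `E.AlgModel.rho_le_iff`, `L(n · inf)` is (the image in `F` of) the
span of the basis vectors `jt` with `s.wt jt ≤ n`, i.e. `≃ Finsupp.supported k k {jt | s.wt jt ≤ n}`. -/
theorem ell_nInf (n : ℕ) : ell (M.nInf n) = {jt : Fin s.m × ℕ | s.wt jt ≤ n}.ncard := by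
  classical
  set S : Set (Fin s.m × ℕ) := {jt : Fin s.m × ℕ | s.wt jt ≤ n} with hS
  let g : ((Fin s.m × ℕ) →₀ k) →ₗ[k] F :=
    (M.R.val.toLinearMap).comp (M.algModel.basis.repr.symm.toLinearMap)
  have hg : Function.Injective g := by
    intro a b hab
    have : M.algModel.basis.repr.symm a = M.algModel.basis.repr.symm b := Subtype.ext hab
    exact M.algModel.basis.repr.symm.injective this
  have hL : riemannRochSpace (M.nInf n) = (Finsupp.supported k k S).map g := by
    ext f
    rw [M.mem_L_nInf_iff, Submodule.mem_map]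
    constructor
    · rintro ⟨r, rfl, hr⟩
      refine ⟨M.algModel.basis.repr r, ?_, ?_⟩
      · rw [Finsupp.mem_supported]
        intro jt hjt
        exact (E.AlgModel.rho_le_iff _).1 hr jt (Finsupp.mem_support_iff.1 hjt)
      · show ((M.algModel.basis.repr.symm (M.algModel.basis.repr r) : M.R) : F) = r
        rw [LinearEquiv.symm_apply_apply]
    · rintro ⟨c, hc, rfl⟩
      refine ⟨M.algModel.basis.repr.symm c, rfl, ?_⟩
      rw [E.AlgModel.rho_le_iff]
      intro jt hjt
      rw [LinearEquiv.apply_symm_apply] at hjt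
      exact (Finsupp.mem_supported _ _).1 hc (Finsupp.mem_support_iff.2 hjt)
  have : Fintype S := (genus_finite_wt_le s n).fintype
  rw [ell, hL, ← (Submodule.equivMapOfInjective g hg (Finsupp.supported k k S)).finrank_eq,
    (Finsupp.supportedEquivFinsupp (M := k) (R := k) S).finrank_eq, Module.finrank_finsupp_self,
    ← Nat.card_eq_fintype_card, Nat.card_coe_set_eq]

/-- `s.wt` is injective with range `s.H`; gaps are `< 2 g` and there are `g` of them
(`Shape.wt_injective`, `Shape.mem_H_of_le`, `Shape.ncard_compl_H`, `Shape.semigroup2_*`). -/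
theorem ncard_wt_le (s : Shape) (n : ℕ) (hn : 2 * s.genus ≤ n + 1) :
    {jt : Fin s.m × ℕ | s.wt jt ≤ n}.ncard + s.genus = n + 1 := by
  classical
  have h1 : s.wt '' {jt : Fin s.m × ℕ | s.wt jt ≤ n} = ↑(s.semigroup2Elts (n + 1)) := by
    ext a
    simp only [Shape.semigroup2Elts, Finset.coe_filter, Finset.mem_range, Set.mem_image,
      Set.mem_ofPred_eq]
    constructor
    · rintro ⟨jt, hjt, rfl⟩
      exact ⟨by omega, jt, rfl⟩
    · rintro ⟨ha, jt, rfl⟩
      exact ⟨jt, by omega, rfl⟩
  rw [← Set.ncard_image_of_injective _ s.wt_injective, h1, Set.ncard_coe_finset,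
    ← s.semigroup2_card_gaps hn]
  exact s.semigroup2_card_add (n + 1)

include M in
/-- the genus of a model: for `n` large `l(n·inf) = n + 1 - genusFF` (`hRR.riemann`, `hRR.duality`,
`l(W - n·inf) = 0` since the degree is negative: `Frob.curve_ell_eq_zero`). -/
theorem genus_eq (h : BaseHyp k F) (hRR : RRPackage k F) : s.genus = genusFF k F := by
  obtain ⟨W, hW⟩ := hRR.duality
  set n : ℕ := max (2 * s.genus) (Divisor.degree W + 1).toNat with hn
  have hn1 : 2 * s.genus ≤ n := le_max_left _ _
  have hn2 : (Divisor.degree W + 1).toNat ≤ n := le_max_right _ _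
  have h1 := hRR.riemann (M.nInf n)
  have h2 : ell (W - M.nInf n) = 0 := by
    apply Frob.curve_ell_eq_zero h hRR.finite_L
    rw [map_sub, M.degree_nInf h]
    omega
  rw [hW, h2, M.degree_nInf h, M.ell_nInf] at h1
  have h3 := ncard_wt_le s n (by omega)
  omega

end OnePointModel

end Fermat.Agent.S27
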