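import Mathlib

/-!
# S27, block API, file `Noeth` (pure commutative algebra, no curves)

A `k`-algebra `R` all of whose quotients `R ⧸ I`, `I ≠ ⊥`, are finite dimensional over `k` is noetherian
and (if it is a domain) of dimension `≤ 1`.
-/

set_option autoImplicit false

namespace Fermat.Agent.S27.API

universe u v

variable {k : Type u} {R : Type v} [Field k] [CommRing R] [Algebra k R]

/-- `I ≠ ⊥`: pick `0 ≠ f ∈ I`; `I / (f) ⊆ R / (f)` is finite dimensional, so `I` is generated by `f` and
finitely many lifts.  (E.g.: `R ⧸ span {f}` is a noetherian `k`-module hence a noetherian `R`-module;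
`I.map (Quotient.mk (span {f}))` is f.g.; or use `isNoetherianRing_iff_ideal_fg` and
`Submodule.fg_of_fg_map_of_fg_inf_ker`.) -/
theorem isNoetherianRing_of_finite_quotient
    (h : ∀ I : Ideal R, I ≠ ⊥ → Module.Finite k (R ⧸ I)) : IsNoetherianRing R := by
  rw [isNoetherianRing_iff_ideal_fg]
  intro I
  by_cases hI : I = ⊥
  · rw [hI]
    exact Submodule.fg_bot
  obtain ⟨f, hfI, hf0⟩ := Submodule.exists_mem_ne_zero_of_ne_bot hI
  have hJ : Ideal.span {f} ≠ ⊥ := by
    rw [Ne, Ideal.span_singleton_eq_bot]
    exact hf0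
  have hfin := h _ hJ
  have hN : IsNoetherian k (R ⧸ Ideal.span {f}) := inferInstance
  have hNR : IsNoetherian R (R ⧸ Ideal.span {f}) := isNoetherian_of_tower k hN
  refine Submodule.fg_of_fg_map_of_fg_inf_ker (Submodule.mkQ (Ideal.span {f}))
    (IsNoetherian.noetherian _) ?_
  rw [Submodule.ker_mkQ]
  have hle : Ideal.span {f} ≤ I := (Ideal.span_singleton_le_iff_mem I).mpr hfI
  rw [inf_eq_right.mpr hle]
  exact ⟨{f}, by simp [Ideal.span]⟩

/-- `R ⧸ P` is a domain, finite dimensional over the field `k`, hence a field. -/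
theorem dimensionLEOne_of_finite_quotient
    (h : ∀ I : Ideal R, I ≠ ⊥ → Module.Finite k (R ⧸ I)) : Ring.DimensionLEOne R := by
  refine ⟨fun {P} hP hprime => ?_⟩
  have hfin := h P hP
  have hint : Algebra.IsIntegral k (R ⧸ P) := Algebra.IsIntegral.of_finite k (R ⧸ P)
  exact Ideal.Quotient.maximal_of_isField P
    (isField_of_isIntegral_of_isField' (Field.toIsField k))

theorem isDedekindDomain_of_finite_quotient [IsDomain R] [IsIntegrallyClosed R]
    (h : ∀ I : Ideal R, I ≠ ⊥ → Module.Finite k (R ⧸ I)) : IsDedekindDomain R :=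
  haveI := isNoetherianRing_of_finite_quotient h
  haveI := dimensionLEOne_of_finite_quotient h
  { }

end Fermat.Agent.S27.API
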