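import Fermat.Agent.S27.API.Rho
import Fermat.Agent.S27.API.Noeth
import Fermat.Agent.S27.API.Frac
import Fermat.Agent.S27.API.Genus
import Fermat.Agent.S27.E.Codim
import Fermat.Agent.S27.E.Main

/-!
# S27, block API: the two contracts `StmtGenus` and `E.StmtAPI`
-/

set_option autoImplicit false

noncomputable section

namespace Fermat.Agent.S27

open AlgebraicCurve Polynomial IsDedekindDomain

universe u v

variable {k : Type u} {F : Type v} [Field k] [Field F] [Algebra k F] {s : Shape}

namespace OnePointModel

variable (M : OnePointModel k F s)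

theorem isDedekindDomain (h : CurveHyp k F) (hRR : RRPackage k F) : IsDedekindDomain M.R :=
  haveI := M.isIntegrallyClosed h hRR
  API.isDedekindDomain_of_finite_quotient (k := k)
    fun _ hI => M.algModel.finite_quotient_ideal M.rhoMul hI

theorem ofHeightOneSpectrum_ne_inf [IsDedekindDomain M.R] [IsFractionRing M.R F]
    (w : HeightOneSpectrum M.R) : Place.ofHeightOneSpectrum (K := k) (F := F) w ≠ M.inf := by
  intro e
  have h1 := S24.algebraMap_mem_ofHeightOneSpectrum (K := k) (F := F) w M.xR
  rw [e] at h1
  have h2 := S24.ord_nonneg_of_mem _ h1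
  have h3 : M.inf.ord (algebraMap M.R F M.xR) = -(s.m : ℤ) := M.ord_x
  have h4 := s.m_pos
  omega

end OnePointModel

namespace API

/-- CONTRACT `StmtGenus`. -/
theorem stmtGenus (hRR : StmtRR.{u, v}) : StmtGenus.{u, v} :=
  fun k F _ _ _ _ h M => M.genus_eq h.toBaseHyp (hRR k F h)

/-- CONTRACT `E.StmtAPI`. -/
theorem stmtAPI (hRR : StmtRR.{u, v}) : E.StmtAPI.{u, v} := by
  intro k F _ _ _ s h M
  have hD := M.isDedekindDomain h (hRR k F h)
  have hF := M.isFractionRing h (hRR k F h)
  exact ⟨M.R, inferInstance, inferInstance, inferInstance, inferInstance, hD, hF, M.algModel, rfl,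
    M.rhoMul, fun v hv b => b.2 v hv, fun w => M.ofHeightOneSpectrum_ne_inf w⟩

end API

end Fermat.Agent.S27
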