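import Fermat.Agent.S27.API.Ring
import Fermat.Agent.S27.E.LemmaW
import Fermat.Agent.S27.E.Semigroup

/-!
# S27, block API, file `Rho`: the algebraic weight of `M.algModel` is the pole order at `inf`

"No cancellation": the monomials `x^t y_j` have pairwise distinct pole orders `s.wt (j,t) = m t + b_j`
at `inf` (`Shape.wt_injective`), so `ord_inf (∑ c_{jt} x^t y_j) = - max {wt jt | c_{jt} ≠ 0}`
(`Valuation.map_sum_eq_of_lt` for `M.inf.adicValuation`, exactly as in `Frob.indep`, which also
provides `Frob.indep_val_term`).  NO hypothesis (`BaseHyp`, ...) is needed.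
-/

set_option autoImplicit false

noncomputable section

namespace Fermat.Agent.S27

open AlgebraicCurve Polynomial

universe u v

variable {k : Type u} {F : Type v} [Field k] [Field F] [Algebra k F] {s : Shape}

namespace OnePointModel

variable (M : OnePointModel k F s)

/-- `f = ∑ c_{jt} x^t y_j` in `F`. -/
theorem coe_eq_sum (f : M.R) : (f : F) = (M.algModel.basis.repr f).sum
    fun jt c => algebraMap k F c * M.x ^ jt.2 * M.y jt.1 := by
  conv_lhs => rw [← M.algModel.basis.linearCombination_repr f]
  rw [Finsupp.linearCombination_apply, Finsupp.sum, Finsupp.sum, AddSubmonoidClass.coe_finsetSum]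
  refine Finset.sum_congr rfl fun jt _ => ?_
  rw [M.algModel_basis]
  simp [Algebra.smul_def, mul_assoc]

/-- MAIN. -/
theorem ord_inf {f : M.R} (hf : f ≠ 0) : M.inf.ord (f : F) = -(M.algModel.rho f : ℤ) := by
  classical
  obtain ⟨z, hz, hwt⟩ := M.algModel.exists_repr_ne_zero hf
  have hzS : z ∈ (M.algModel.basis.repr f).support := Finsupp.mem_support_iff.mpr hz
  have hval := Valuation.map_sum_eq_of_lt M.inf.adicValuation
    (f := fun jt : Fin s.m × ℕ =>
      algebraMap k F (M.algModel.basis.repr f jt) * M.x ^ jt.2 * M.y jt.1)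
    hzS (by
      intro z' hz'
      obtain ⟨hz'S, hz'ne⟩ := Finset.mem_sdiff.1 hz'
      have hz'0 : M.algModel.basis.repr f z' ≠ 0 := Finsupp.mem_support_iff.mp hz'S
      rw [Frob.indep_val_term M hz'0, Frob.indep_val_term M hz, WithZero.exp_lt_exp]
      have hle : s.wt z' ≤ s.wt z := by
        rw [hwt]
        exact M.algModel.rho_le_iff.mp le_rfl z' hz'0
      have hneq : s.wt z' ≠ s.wt z := fun heq =>
        hz'ne (Finset.mem_singleton.2 (s.wt_injective heq))
      have hlt : s.wt z' < s.wt z := lt_of_le_of_ne hle hneq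
      unfold Shape.wt at hlt
      exact_mod_cast hlt)
  have hsum := M.coe_eq_sum f
  rw [Finsupp.sum] at hsum
  rw [← hsum, Frob.indep_val_term M hz] at hval
  rw [Place.ord, hval, WithZero.log_exp, ← hwt]
  rfl

theorem ord_inf' (f : M.R) : M.inf.ord (f : F) = -(M.algModel.rho f : ℤ) := by
  rcases eq_or_ne f 0 with rfl | hf
  · simp
  · exact M.ord_inf hf

theorem rhoMul : M.algModel.RhoMul := by
  intro f g hf hg
  have hfF : (f : F) ≠ 0 := fun h => hf (Subtype.ext h)
  have hgF : (g : F) ≠ 0 := fun h => hg (Subtype.ext h)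
  have h1 := M.ord_inf' (f * g)
  rw [MulMemClass.coe_mul, M.inf.ord_mul hfF hgF, M.ord_inf', M.ord_inf'] at h1
  omega

theorem rho_xR : M.algModel.rho M.xR = s.m := by
  have h1 := M.ord_inf' M.xR
  rw [coe_xR, M.ord_x] at h1
  omega

/-- `M.R` is not a field (`x` is not a unit: `rho x = m > 0`). -/
theorem not_isField : ¬ IsField M.R := by
  intro hfield
  have hx0 : M.xR ≠ 0 := fun h => Frob.indep_x_ne_zero M (congrArg Subtype.val h)
  obtain ⟨g, hg⟩ := hfield.mul_inv_cancel hx0
  have hg0 : g ≠ 0 := by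
    rintro rfl
    rw [mul_zero] at hg
    exact zero_ne_one hg
  have h1 := M.rhoMul M.xR g hx0 hg0
  have h2 := M.ord_inf' 1
  rw [OneMemClass.coe_one, Place.ord_one] at h2
  rw [hg, M.rho_xR] at h1
  have := s.m_pos
  omega

end OnePointModel

end Fermat.Agent.S27
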