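import Fermat.Agent.S27.Model
import Fermat.Agent.S27.E.Defs
import Fermat.Agent.S27.Frob.Indep
import Fermat.Agent.S24.PlaceDedekind

/-!
# S27, block API, file `Ring`: the coordinate ring `M.R` of a one point model is an `E.AlgModel`

`M.R = {f | f regular outside inf}`; `M.algModel : E.AlgModel s k M.R` (monomial basis `x^t y_j`).
NO hypothesis (`BaseHyp`, ...) is needed here.
-/

set_option autoImplicit false

noncomputable section

namespace Fermat.Agent.S27

open AlgebraicCurve Polynomial

universe u v

variable {k : Type u} {F : Type v} [Field k] [Field F] [Algebra k F] {s : Shape}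

namespace OnePointModel

variable (M : OnePointModel k F s)

/-- the ring of functions regular outside `inf`. -/
def R : Subalgebra k F where
  carrier := {f | ∀ v : Place k F, v ≠ M.inf → f ∈ v.toValuationSubring}
  mul_mem' := fun hf hg v hv => mul_mem (hf v hv) (hg v hv)
  add_mem' := fun hf hg v hv => add_mem (hf v hv) (hg v hv)
  algebraMap_mem' := fun a v _ => v.algebraMap_mem' a

theorem mem_R_iff' {f : F} : f ∈ M.R ↔ ∀ v : Place k F, v ≠ M.inf → f ∈ v.toValuationSubring :=
  Iff.rfl

theorem mem_R_iff {f : F} : f ∈ M.R ↔ ∀ v : Place k F, v ≠ M.inf → 0 ≤ v.ord f := by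
  rw [mem_R_iff']
  refine forall_congr' fun v => forall_congr' fun _ => ?_
  rcases eq_or_ne f 0 with rfl | hf
  · simp [zero_mem]
  · exact S24.mem_iff_ord_nonneg v hf

theorem x_mem : M.x ∈ M.R := M.mem_R_iff.mpr M.regular_x

theorem y_mem (j : Fin s.m) : M.y j ∈ M.R := M.mem_R_iff.mpr fun v hv => M.regular_y v hv j

/-- `x` as an element of `M.R`. -/
def xR : M.R := ⟨M.x, M.x_mem⟩

/-- `y j` as an element of `M.R`. -/
def yR (j : Fin s.m) : M.R := ⟨M.y j, M.y_mem j⟩

@[simp] theorem coe_xR : (M.xR : F) = M.x := rfl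

@[simp] theorem coe_yR (j : Fin s.m) : (M.yR j : F) = M.y j := rfl

theorem yR_zero : M.yR s.zero = 1 := Subtype.ext M.y_zero

theorem coe_aeval_xR (p : k[X]) : ((aeval M.xR p : M.R) : F) = aeval M.x p := by
  have h := Polynomial.aeval_algHom_apply M.R.val M.xR p
  exact h.symm

theorem mul_tableR (i j : Fin s.m) :
    M.yR i * M.yR j = ∑ l, aeval M.xR (M.c.poly i j l) * M.yR l := by
  apply Subtype.ext
  have h := M.mul_table i j
  simp only [MulMemClass.coe_mul, coe_yR, AddSubmonoidClass.coe_finsetSum, coe_aeval_xR]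
  exact h

/-- the monomials `x^t y_j`. -/
def monoR (jt : Fin s.m × ℕ) : M.R := M.xR ^ jt.2 * M.yR jt.1

theorem coe_linearCombination_monoR (l : (Fin s.m × ℕ) →₀ k) :
    ((Finsupp.linearCombination k M.monoR l : M.R) : F)
      = ∑ z ∈ l.support, algebraMap k F (l z) * M.x ^ z.2 * M.y z.1 := by
  rw [Finsupp.linearCombination_apply, Finsupp.sum, AddSubmonoidClass.coe_finsetSum]
  refine Finset.sum_congr rfl fun z _ => ?_
  show (l z) • ((M.monoR z : M.R) : F) = _
  rw [Algebra.smul_def, mul_assoc]
  rfl

/-- the monomials have pairwise distinct pole orders at `inf`. -/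
theorem linearIndependent_monoR : LinearIndependent k M.monoR := by
  classical
  rw [linearIndependent_iff]
  intro l hl
  by_contra hne
  have hSne : l.support.Nonempty := Finsupp.support_nonempty_iff.mpr hne
  obtain ⟨z, hz, hmax⟩ := Finset.exists_max_image l.support (fun z => s.m * z.2 + s.b z.1) hSne
  have hcoef : ∀ z' ∈ l.support, l z' ≠ 0 := fun z' hz' => Finsupp.mem_support_iff.mp hz'
  have hval := Valuation.map_sum_eq_of_lt M.inf.adicValuation
    (f := fun z : Fin s.m × ℕ => algebraMap k F (l z) * M.x ^ z.2 * M.y z.1)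
    hz (by
      intro z' hz'
      obtain ⟨hz'S, hz'ne⟩ := Finset.mem_sdiff.1 hz'
      rw [Frob.indep_val_term M (hcoef z' hz'S), Frob.indep_val_term M (hcoef z hz),
        WithZero.exp_lt_exp]
      have hle := hmax z' hz'S
      have hneq : s.m * z'.2 + s.b z'.1 ≠ s.m * z.2 + s.b z.1 := by
        intro heq
        obtain ⟨h1, h2⟩ := Frob.indep_weight_inj s heq
        exact hz'ne (Finset.mem_singleton.2 (Prod.ext h1 h2))
      exact_mod_cast lt_of_le_of_ne hle hneq)
  rw [← coe_linearCombination_monoR, hl, ZeroMemClass.coe_zero, map_zero,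
    Frob.indep_val_term M (hcoef z hz)] at hval
  exact WithZero.exp_ne_zero hval.symm

/-- from `M.span`. -/
theorem span_monoR : ⊤ ≤ Submodule.span k (Set.range M.monoR) := by
  intro f _
  obtain ⟨p, hp⟩ := M.span f (M.mem_R_iff.mp f.2)
  have hf : f = ∑ j, aeval M.xR (p j) * M.yR j := by
    apply Subtype.ext
    rw [hp, AddSubmonoidClass.coe_finsetSum]
    refine Finset.sum_congr rfl fun j _ => ?_
    rw [MulMemClass.coe_mul, coe_aeval_xR, coe_yR]
  rw [hf]
  refine Submodule.sum_mem _ fun j _ => ?_
  rw [Polynomial.aeval_eq_sum_range, Finset.sum_mul]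
  refine Submodule.sum_mem _ fun t _ => ?_
  rw [smul_mul_assoc]
  exact Submodule.smul_mem _ _ (Submodule.subset_span ⟨(j, t), rfl⟩)

/-- `M.R` as an algebraic one point model in the sense of block E. -/
def algModel : E.AlgModel s k M.R where
  x := M.xR
  y := M.yR
  c := M.c
  y_zero := M.yR_zero
  mul_table := M.mul_tableR
  basis := Module.Basis.mk M.linearIndependent_monoR M.span_monoR
  basis_apply := fun jt => by rw [Module.Basis.mk_apply]; rfl

@[simp] theorem algModel_x : M.algModel.x = M.xR := rfl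

@[simp] theorem algModel_y : M.algModel.y = M.yR := rfl

@[simp] theorem algModel_c : M.algModel.c = M.c := rfl

theorem algModel_basis (jt : Fin s.m × ℕ) : M.algModel.basis jt = M.xR ^ jt.2 * M.yR jt.1 :=
  M.algModel.basis_apply jt

end OnePointModel

end Fermat.Agent.S27
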